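/-
JT3 (helper2, referee of seams): the SEAM between the statement S18 and the r-free node "F-core".

`jt_IntFun A N`   : q-integral functions with nonzero reduction (exactly the `y` of the prelude's
                    `IsPlaceReductionAlong` / `integralPrincipalDivisors`).
`jt_FCore A N m`  : a finite product `f = ∏ y ^ c y` of such functions with `div f = m • D` and
                    `div (f̄) = 0` on the reduced function field has `D` principal.  NO place map.
`jt_HasDiv N`     : every nonzero function of `Q̄(X₀(N))` has a divisor (finitely many zeros/poles).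
`jt_S18_of_FCore` : `jt_HasDiv N → jt_FCore A N m →` (the conclusion of S18, verbatim).
-/
import Mathlib
import Fermat.Prelude.Def_ModularCurve_ReductionModL

set_option autoImplicit false

noncomputable section

namespace Fermat.Agent.JT3

open ModularCurve AlgebraicCurve HahnSeries

variable (A : ValuationSubring (AlgebraicClosure ℚ)) (N : ℕ)

/-- q-integral functions of `Q̄(X₀(N))` whose reduction is a nonzero element of the reduced
function field. -/
def jt_IntFun : Type :=
  {y : LaurentSeries A //
    coeffMap A.subtype y ∈ modularFunctionFieldBar N ∧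
    coeffMap (IsLocalRing.residue A) y ∈
      modularFunctionFieldFullC (IsLocalRing.ResidueField A) N ∧
    coeffMap (IsLocalRing.residue A) y ≠ 0}

variable {A N}

/-- the function in characteristic zero -/
def jt_gen (y : jt_IntFun A N) : modularFunctionFieldBar N :=
  ⟨coeffMap A.subtype y.1, y.2.1⟩

/-- its reduction -/
def jt_red (y : jt_IntFun A N) : modularFunctionFieldFullC (IsLocalRing.ResidueField A) N :=
  ⟨coeffMap (IsLocalRing.residue A) y.1, y.2.2.1⟩

theorem jt_red_ne_zero (y : jt_IntFun A N) : jt_red y ≠ 0 := fun h =>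
  y.2.2.2 (congrArg Subtype.val h)

theorem jt_gen_ne_zero (y : jt_IntFun A N) : jt_gen y ≠ 0 := by
  intro h
  have h1 : coeffMap A.subtype y.1 = 0 := congrArg Subtype.val h
  have h2 : y.1 = 0 := by
    ext n
    have := congrArg (fun s => HahnSeries.coeff s n) h1
    simpa [coeffMap_coeff] using this
  exact y.2.2.2 (by rw [h2, map_zero])

variable (A N)

/-- **Node F-core** (no place map): `f = ∏ y ^ c y`, `div f = m • D`, `div f̄ = 0` ⟹ `D` principal. -/
def jt_FCore (m : ℕ) : Prop :=
  ∀ (c : jt_IntFun A N →₀ ℤ)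
    (D : Divisor (AlgebraicClosure ℚ) (modularFunctionFieldBar N)),
    (∀ P : Place (AlgebraicClosure ℚ) (modularFunctionFieldBar N),
      (m : ℤ) * D P = c.sum fun y e => e * P.ord (jt_gen y)) →
    (∀ Q : Place (IsLocalRing.ResidueField A)
        (modularFunctionFieldFullC (IsLocalRing.ResidueField A) N),
      (c.sum fun y e => e * Q.ord (jt_red y)) = 0) →
    D ∈ Divisor.principal (K := AlgebraicClosure ℚ) (F := modularFunctionFieldBar N)

/-- every nonzero function has a divisor. -/
def jt_HasDiv : Prop :=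
  ∀ f : modularFunctionFieldBar N, f ≠ 0 →
    ∃ D : Divisor (AlgebraicClosure ℚ) (modularFunctionFieldBar N),
      ∀ P : Place (AlgebraicClosure ℚ) (modularFunctionFieldBar N), D P = P.ord f

variable {A N}

/-! ### lifting elements of the reduced function field -/

theorem jt_coeffMap_single_zero {R S : Type*} [CommRing R] [CommRing S] (f : R →+* S) (a : R) :
    coeffMap f (HahnSeries.single (0 : ℤ) a) = HahnSeries.single (0 : ℤ) (f a) :=
  coeffMap_single f 0 a

theorem jt_gen_mem_bar [NeZero N] {d : ℕ} [NeZero d] (hd : d ∣ N) :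
    coeffMap A.subtype (qExpand A d (jqModC A)) ∈ modularFunctionFieldBar N := by
  rw [coeffMap_qExpand, coeffMap_jqModC]
  have h1 : qExpand (AlgebraicClosure ℚ) d (jqModC (AlgebraicClosure ℚ))
      = coeffEmb (AlgebraicClosure ℚ) (qExpand ℚ d jq) := by
    rw [coeffEmb, coeffMap_qExpand, ← jqModC_rat, coeffMap_jqModC]
  rw [h1]
  exact coeffEmb_mem_laurentBaseChange _ (jqd_mem_full N hd)

/-- every element of the `k`-algebra generated by the `j̃(q^d)` lifts to a q-integral element of
`Q̄(X₀(N))`. -/
theorem jt_exists_lift_adjoin [NeZero N] (x : LaurentSeries (IsLocalRing.ResidueField A))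
    (hx : x ∈ Algebra.adjoin (IsLocalRing.ResidueField A)
      (divisorExpansionsC (IsLocalRing.ResidueField A) N)) :
    ∃ y : LaurentSeries A, coeffMap A.subtype y ∈ modularFunctionFieldBar N ∧
      coeffMap (IsLocalRing.residue A) y = x := by
  induction hx using Algebra.adjoin_induction with
  | mem x hx =>
    obtain ⟨d, hd, hdN, rfl⟩ := hx
    refine ⟨qExpand A d (jqModC A), jt_gen_mem_bar hdN, ?_⟩
    rw [coeffMap_qExpand, coeffMap_jqModC]
  | algebraMap r =>
    obtain ⟨a, rfl⟩ := IsLocalRing.residue_surjective r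
    refine ⟨HahnSeries.single (0 : ℤ) a, ?_, ?_⟩
    · rw [jt_coeffMap_single_zero, ← algebraMap_laurentSeries_eq_single]
      exact IntermediateField.algebraMap_mem _ _
    · rw [jt_coeffMap_single_zero, ← algebraMap_laurentSeries_eq_single]
  | add x y _ _ hx hy =>
    obtain ⟨a, ha, rfl⟩ := hx
    obtain ⟨b, hb, rfl⟩ := hy
    exact ⟨a + b, by rw [map_add]; exact add_mem ha hb, by rw [map_add]⟩
  | mul x y _ _ hx hy =>
    obtain ⟨a, ha, rfl⟩ := hx
    obtain ⟨b, hb, rfl⟩ := hy
    exact ⟨a * b, by rw [map_mul]; exact mul_mem ha hb, by rw [map_mul]⟩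

/-- **Lifting lemma**: every nonzero `ḡ` of the reduced function field is a quotient of
reductions of q-integral functions. -/
theorem jt_exists_lift [NeZero N]
    (g : modularFunctionFieldFullC (IsLocalRing.ResidueField A) N) (hg : g ≠ 0) :
    ∃ ya yb : jt_IntFun A N, jt_red ya = g * jt_red yb := by
  have hgmem : (g : LaurentSeries (IsLocalRing.ResidueField A)) ∈
      IntermediateField.adjoin (IsLocalRing.ResidueField A)
        (divisorExpansionsC (IsLocalRing.ResidueField A) N) := g.2
  obtain ⟨r, hr, s, hs, hrs⟩ := IntermediateField.mem_adjoin_iff_div.mp hgmem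
  have hg0 : (g : LaurentSeries (IsLocalRing.ResidueField A)) ≠ 0 := fun h => hg (Subtype.ext h)
  have hs0 : s ≠ 0 := by
    rintro rfl
    rw [div_zero] at hrs
    exact hg0 hrs
  have hr0 : r ≠ 0 := by
    rintro rfl
    rw [zero_div] at hrs
    exact hg0 hrs
  have hle : Algebra.adjoin (IsLocalRing.ResidueField A)
      (divisorExpansionsC (IsLocalRing.ResidueField A) N)
      ≤ (modularFunctionFieldFullC (IsLocalRing.ResidueField A) N).toSubalgebra :=
    Algebra.adjoin_le (IntermediateField.subset_adjoin _ _)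
  obtain ⟨a, ha, har⟩ := jt_exists_lift_adjoin r hr
  obtain ⟨b, hb, hbs⟩ := jt_exists_lift_adjoin s hs
  refine ⟨⟨a, ha, by rw [har]; exact hle hr, by rw [har]; exact hr0⟩,
    ⟨b, hb, by rw [hbs]; exact hle hs, by rw [hbs]; exact hs0⟩, ?_⟩
  apply Subtype.ext
  show coeffMap (IsLocalRing.residue A) a = (g : LaurentSeries _) * coeffMap (IsLocalRing.residue A) b
  rw [har, hbs, hrs, div_mul_cancel₀ _ hs0]

/-! ### linear combinations of integral principal divisors -/

section Comb

variable {r : Place (AlgebraicClosure ℚ) (modularFunctionFieldBar N) →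
  Place (IsLocalRing.ResidueField A) (modularFunctionFieldFullC (IsLocalRing.ResidueField A) N)}

/-- a divisor in the closure of the integral principal divisors is the divisor of a finite product
of q-integral functions, and its reduction is the divisor of the product of the reductions. -/
theorem jt_exists_comb (hr : IsPlaceReductionModL A N r)
    {D : Divisor (AlgebraicClosure ℚ) (modularFunctionFieldBar N)}
    (hD : D ∈ AddSubgroup.closure (integralPrincipalDivisors A (IsLocalRing.residue A) N)) :
    ∃ c : jt_IntFun A N →₀ ℤ,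
      (∀ P, D P = c.sum fun y e => e * P.ord (jt_gen y)) ∧
      (∀ Q, Finsupp.mapDomain r D Q = c.sum fun y e => e * Q.ord (jt_red y)) := by
  classical
  induction hD using AddSubgroup.closure_induction with
  | mem E hE =>
    obtain ⟨y, hy, hyk, hne, hEy⟩ := hE
    refine ⟨Finsupp.single (⟨y, hy, hyk, hne⟩ : jt_IntFun A N) 1, fun P => ?_, fun Q => ?_⟩
    · rw [Finsupp.sum_single_index (by simp), one_mul]
      exact hEy P
    · rw [Finsupp.sum_single_index (by simp), one_mul]
      exact hr.2 y hy hyk hne E hEy Q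
  | zero =>
    exact ⟨0, fun P => by simp, fun Q => by simp⟩
  | add E E' _ _ hE hE' =>
    obtain ⟨c, hc1, hc2⟩ := hE
    obtain ⟨c', hc1', hc2'⟩ := hE'
    refine ⟨c + c', fun P => ?_, fun Q => ?_⟩
    · rw [Finsupp.sum_add_index' (fun _ => by simp) (fun _ _ _ => by ring), Finsupp.add_apply,
        hc1, hc1']
    · rw [Finsupp.sum_add_index' (fun _ => by simp) (fun _ _ _ => by ring),
        Finsupp.mapDomain_add, Finsupp.add_apply, hc2, hc2']
  | neg E _ hE =>
    obtain ⟨c, hc1, hc2⟩ := hE
    refine ⟨-c, fun P => ?_, fun Q => ?_⟩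
    · rw [Finsupp.sum_neg_index (fun _ => by simp), Finsupp.neg_apply, hc1]
      simp only [Finsupp.sum, neg_mul, Finset.sum_neg_distrib]
    · have hneg : Finsupp.mapDomain r (-E) = -Finsupp.mapDomain r E := by
        rw [← Finsupp.mapDomain.addMonoidHom_apply, map_neg, Finsupp.mapDomain.addMonoidHom_apply]
      rw [Finsupp.sum_neg_index (fun _ => by simp), hneg, Finsupp.neg_apply, hc2]
      simp only [Finsupp.sum, neg_mul, Finset.sum_neg_distrib]

end Comb

/-! ### the glue -/

/-- **S18 from F-core.**  The conclusion is the statement of S18 verbatim (its hypotheses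
`hℓN`, `hA`, `hm` are consumed by the proof of `jt_FCore`). -/
theorem jt_S18_of_FCore [NeZero N] (h : ReductionInputsModL A N) (m : ℕ)
    (hdiv : jt_HasDiv N) (hF : jt_FCore A N m) (z : JZero N)
    (hmz : m • z = 0) (hz : reductionModL A N z = 0) : z = 0 := by
  classical
  obtain ⟨D0, rfl⟩ := Pic0.mk_surjective z
  set r := placeReductionModL h with hrdef
  have hr : IsPlaceReductionModL A N r := isPlaceReductionModL_placeReductionModL h
  have hgen : PrincipalGeneratedByIntegral A (IsLocalRing.residue A) N := h.choose_spec.2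
  -- the reduction of `D0` is principal
  have hz' : Finsupp.mapDomain r (D0 : Divisor (AlgebraicClosure ℚ) (modularFunctionFieldBar N)) ∈
      Divisor.principal (K := IsLocalRing.ResidueField A)
        (F := modularFunctionFieldFullC (IsLocalRing.ResidueField A) N) := by
    rw [reductionModL_mk h] at hz
    have := (QuotientAddGroup.eq_zero_iff _).mp hz
    rw [AddSubgroup.mem_addSubgroupOf, coe_reductionDegZeroAlong] at this
    exact this
  obtain ⟨gbar, hgbar0, hgbar⟩ := hz'
  -- `m • D0` is principal
  have hm' : ((m • D0 : Divisor.degZero (K := AlgebraicClosure ℚ) (F := modularFunctionFieldBar N)) :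
      Divisor (AlgebraicClosure ℚ) (modularFunctionFieldBar N)) ∈
      Divisor.principal (K := AlgebraicClosure ℚ) (F := modularFunctionFieldBar N) := by
    have h1 : Pic0.mk (m • D0) = (0 : JZero N) := by
      rw [← hmz]; rfl
    have := (QuotientAddGroup.eq_zero_iff _).mp h1
    rwa [AddSubgroup.mem_addSubgroupOf] at this
  rw [AddSubgroupClass.coe_nsmul] at hm'
  obtain ⟨c, hc1, hc2⟩ := jt_exists_comb hr (hgen hm')
  -- lift `gbar`
  obtain ⟨ya, yb, hab⟩ := jt_exists_lift gbar hgbar0
  obtain ⟨Ea, hEa⟩ := hdiv (jt_gen ya) (jt_gen_ne_zero ya)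
  obtain ⟨Eb, hEb⟩ := hdiv (jt_gen yb) (jt_gen_ne_zero yb)
  have hEa' : ∀ Q, Finsupp.mapDomain r Ea Q = Q.ord (jt_red ya) := fun Q =>
    hr.2 ya.1 ya.2.1 ya.2.2.1 ya.2.2.2 Ea hEa Q
  have hEb' : ∀ Q, Finsupp.mapDomain r Eb Q = Q.ord (jt_red yb) := fun Q =>
    hr.2 yb.1 yb.2.1 yb.2.2.1 yb.2.2.2 Eb hEb Q
  have hord : ∀ Q : Place (IsLocalRing.ResidueField A)
      (modularFunctionFieldFullC (IsLocalRing.ResidueField A) N),
      Q.ord (jt_red ya) = Q.ord gbar + Q.ord (jt_red yb) := fun Q => by
    rw [hab, Place.ord_mul Q hgbar0 (jt_red_ne_zero yb)]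
  -- the shifted divisor
  set D1 : Divisor (AlgebraicClosure ℚ) (modularFunctionFieldBar N) :=
    (D0 : Divisor (AlgebraicClosure ℚ) (modularFunctionFieldBar N)) - Ea + Eb with hD1
  set c1 : jt_IntFun A N →₀ ℤ := c - Finsupp.single ya (m : ℤ) + Finsupp.single yb (m : ℤ)
    with hc1def
  have hsum : ∀ (φ : jt_IntFun A N → ℤ),
      (c1.sum fun y e => e * φ y) = (c.sum fun y e => e * φ y) - m * φ ya + m * φ yb := by
    intro φ
    rw [hc1def, Finsupp.sum_add_index' (fun _ => by simp) (fun _ _ _ => by ring),
      Finsupp.sum_sub_index (fun _ _ _ => by ring),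
      Finsupp.sum_single_index (by simp), Finsupp.sum_single_index (by simp)]
  have hD1prin : D1 ∈ Divisor.principal (K := AlgebraicClosure ℚ)
      (F := modularFunctionFieldBar N) := by
    refine hF c1 D1 (fun P => ?_) (fun Q => ?_)
    · rw [hsum (fun y => P.ord (jt_gen y)), ← hc1 P, hD1, Finsupp.add_apply, Finsupp.sub_apply,
        Finsupp.smul_apply, hEa P, hEb P, nsmul_eq_mul]
      ring
    · rw [hsum (fun y => Q.ord (jt_red y)), ← hc2 Q, hord Q]
      have h3 : Finsupp.mapDomain r
          (m • (D0 : Divisor (AlgebraicClosure ℚ) (modularFunctionFieldBar N))) Q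
          = m * Q.ord gbar := by
        rw [Finsupp.mapDomain_smul, Finsupp.smul_apply, hgbar Q, nsmul_eq_mul]
      rw [h3]
      ring
  -- conclude
  have hEaP : Ea ∈ Divisor.principal (K := AlgebraicClosure ℚ) (F := modularFunctionFieldBar N) :=
    ⟨jt_gen ya, jt_gen_ne_zero ya, hEa⟩
  have hEbP : Eb ∈ Divisor.principal (K := AlgebraicClosure ℚ) (F := modularFunctionFieldBar N) :=
    ⟨jt_gen yb, jt_gen_ne_zero yb, hEb⟩
  have hD0 : (D0 : Divisor (AlgebraicClosure ℚ) (modularFunctionFieldBar N)) ∈
      Divisor.principal (K := AlgebraicClosure ℚ) (F := modularFunctionFieldBar N) := by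
    have : (D0 : Divisor (AlgebraicClosure ℚ) (modularFunctionFieldBar N)) = D1 + Ea - Eb := by
      rw [hD1]; abel
    rw [this]
    exact AddSubgroup.sub_mem _ (AddSubgroup.add_mem _ hD1prin hEaP) hEbP
  exact (QuotientAddGroup.eq_zero_iff _).mpr (AddSubgroup.mem_addSubgroupOf.mpr hD0)

end Fermat.Agent.JT3

end
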