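/-
JT3 (helper2): discharge of the seam `jt_HasDiv N` (every nonzero function of `Q̄(X₀(N))` has a
divisor) from the S24 place library, and the resulting form of the S18 glue.
-/
import Mathlib
import Fermat.Agent.JT3.S18Glue
import Fermat.Agent.S24.Bridge.Degree
import Fermat.Agent.S24.Hurwitz.FunctionField

set_option autoImplicit false

noncomputable section

namespace Fermat.Agent.JT3

open ModularCurve AlgebraicCurve Fermat.Agent.S24

/-- a nonzero element of a function field of one variable over an algebraically closed field of
characteristic zero has finitely many zeros and poles. -/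
theorem jt_finite_ord_ne_zero {K F : Type*} [Field K] [Field F] [Algebra K F] [IsAlgClosed K]
    [CharZero K] (x : F) [FiniteDimensional (IntermediateField.adjoin K {x}) F] (f : F) :
    {v : Place K F | v.ord f ≠ 0}.Finite := by
  rcases hw_const_or_transcendental (K := K) f with ⟨c, rfl⟩ | hf
  · have : {v : Place K F | v.ord (algebraMap K F c) ≠ 0} = ∅ := by
      ext v
      simp only [Set.mem_setOf_eq, Set.mem_empty_iff_false, iff_false, not_not]
      exact hw_ord_algebraMap v c
    rw [this]
    exact Set.finite_empty
  · haveI : FiniteDimensional (IntermediateField.adjoin K {f}) F :=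
      hw_finiteDimensional_adjoin x hf
    have h1 := hw_finite_fiber hf (0 : K)
    have h2 := hw_finite_poles hf
    rw [map_zero, sub_zero] at h1
    refine (h1.union h2).subset ?_
    intro v hv
    simp only [Set.mem_setOf_eq] at hv
    rcases lt_trichotomy (v.ord f) 0 with h | h | h
    · exact Or.inr h
    · exact absurd h hv
    · exact Or.inl h

theorem jt_hasDiv (N : ℕ) [NeZero N] : jt_HasDiv N := by
  intro f _
  have hfin : {v : Place (AlgebraicClosure ℚ) (modularFunctionFieldBar N) | v.ord f ≠ 0}.Finite :=
    jt_finite_ord_ne_zero (K := AlgebraicClosure ℚ) (ff_jF N) f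
  refine ⟨Finsupp.ofSupportFinite (fun v => v.ord f) hfin, fun P => ?_⟩
  rfl

/-- **S18 from F-core alone.** -/
theorem jt_S18_of_FCore' {N : ℕ} [NeZero N] {A : ValuationSubring (AlgebraicClosure ℚ)}
    (h : ReductionInputsModL A N) (m : ℕ) (hF : jt_FCore A N m) (z : JZero N)
    (hmz : m • z = 0) (hz : reductionModL A N z = 0) : z = 0 :=
  jt_S18_of_FCore h m (jt_hasDiv N) hF z hmz hz

end Fermat.Agent.JT3

end
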