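/-
JT3 (helper2, referee of seams): the second seam of S18.

`jt_Key A N p`      : a function `f = y1 / y2` (`y1, y2` q-integral with EQUAL nonzero reductions)
                      with `p ∣ ord_P f` at every place is `c · g ^ p`.          (helper7's KEY_N)
`jt_ConstRed A N`   : a nonzero function of the reduced function field without zeros and poles is
                      constant.
`jt_FCore_of_Key`   : `jt_Key A N p → jt_ConstRed A N → jt_FCore A N p`.
`jt_S18_of_Key`     : `(∀ p prime, p ∣ m → jt_Key A N p) → jt_ConstRed A N →` conclusion of S18.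
-/
import Mathlib
import Fermat.Agent.JT3.S18Div
import Fermat.Agent.S24.Hurwitz.Places

set_option autoImplicit false

noncomputable section

namespace Fermat.Agent.JT3

open ModularCurve AlgebraicCurve HahnSeries Fermat.Agent.S24

variable (A : ValuationSubring (AlgebraicClosure ℚ)) (N : ℕ)

/-- **Node KEY** at level `N` for the exponent `p` (no place map, no divisors). -/
def jt_Key (p : ℕ) : Prop :=
  ∀ (y1 y2 : LaurentSeries A)
    (h1 : coeffMap A.subtype y1 ∈ modularFunctionFieldBar N)
    (h2 : coeffMap A.subtype y2 ∈ modularFunctionFieldBar N),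
    coeffMap (IsLocalRing.residue A) y1 = coeffMap (IsLocalRing.residue A) y2 →
    coeffMap (IsLocalRing.residue A) y2 ≠ 0 →
    ∀ f : modularFunctionFieldBar N,
      f * (⟨coeffMap A.subtype y2, h2⟩ : modularFunctionFieldBar N)
        = (⟨coeffMap A.subtype y1, h1⟩ : modularFunctionFieldBar N) →
      (∀ P : Place (AlgebraicClosure ℚ) (modularFunctionFieldBar N), (p : ℤ) ∣ P.ord f) →
      ∃ (c : AlgebraicClosure ℚ) (g : modularFunctionFieldBar N),
        f = algebraMap (AlgebraicClosure ℚ) (modularFunctionFieldBar N) c * g ^ p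

/-- a function of the reduced function field without zeros and poles is constant. -/
def jt_ConstRed : Prop :=
  ∀ g : modularFunctionFieldFullC (IsLocalRing.ResidueField A) N, g ≠ 0 →
    (∀ Q : Place (IsLocalRing.ResidueField A)
      (modularFunctionFieldFullC (IsLocalRing.ResidueField A) N), Q.ord g = 0) →
    ∃ c : IsLocalRing.ResidueField A,
      g = algebraMap (IsLocalRing.ResidueField A)
        (modularFunctionFieldFullC (IsLocalRing.ResidueField A) N) c

variable {A N}

/-! ### the monoid structure of `jt_IntFun` -/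

def jt_one : jt_IntFun A N :=
  ⟨1, by rw [map_one]; exact one_mem _, by rw [map_one]; exact one_mem _,
    by rw [map_one]; exact one_ne_zero⟩

def jt_mul (a b : jt_IntFun A N) : jt_IntFun A N :=
  ⟨a.1 * b.1, by rw [map_mul]; exact mul_mem a.2.1 b.2.1,
    by rw [map_mul]; exact mul_mem a.2.2.1 b.2.2.1,
    by rw [map_mul]; exact mul_ne_zero a.2.2.2 b.2.2.2⟩

def jt_pow (a : jt_IntFun A N) (n : ℕ) : jt_IntFun A N :=
  ⟨a.1 ^ n, by rw [map_pow]; exact pow_mem a.2.1 n,
    by rw [map_pow]; exact pow_mem a.2.2.1 n,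
    by rw [map_pow]; exact pow_ne_zero n a.2.2.2⟩

/-- constants: units of `A`. -/
def jt_const [NeZero N] (a : A) (ha : IsLocalRing.residue A a ≠ 0) : jt_IntFun A N :=
  ⟨HahnSeries.single (0 : ℤ) a, by
      rw [jt_coeffMap_single_zero, ← algebraMap_laurentSeries_eq_single]
      exact IntermediateField.algebraMap_mem _ _, by
      rw [jt_coeffMap_single_zero, ← algebraMap_laurentSeries_eq_single]
      exact IntermediateField.algebraMap_mem _ _, by
      rw [jt_coeffMap_single_zero]
      intro h
      exact ha (by simpa using congrArg (fun s => HahnSeries.coeff s 0) h)⟩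

@[simp] theorem jt_gen_one : jt_gen (jt_one : jt_IntFun A N) = 1 :=
  Subtype.ext (by show coeffMap A.subtype 1 = 1; rw [map_one])

@[simp] theorem jt_red_one : jt_red (jt_one : jt_IntFun A N) = 1 :=
  Subtype.ext (by show coeffMap (IsLocalRing.residue A) 1 = 1; rw [map_one])

@[simp] theorem jt_gen_mul (a b : jt_IntFun A N) : jt_gen (jt_mul a b) = jt_gen a * jt_gen b :=
  Subtype.ext (by show coeffMap A.subtype (a.1 * b.1) = _; rw [map_mul]; rfl)

@[simp] theorem jt_red_mul (a b : jt_IntFun A N) : jt_red (jt_mul a b) = jt_red a * jt_red b :=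
  Subtype.ext (by show coeffMap (IsLocalRing.residue A) (a.1 * b.1) = _; rw [map_mul]; rfl)

@[simp] theorem jt_gen_pow (a : jt_IntFun A N) (n : ℕ) : jt_gen (jt_pow a n) = jt_gen a ^ n :=
  Subtype.ext (by show coeffMap A.subtype (a.1 ^ n) = _; rw [map_pow]; rfl)

@[simp] theorem jt_red_pow (a : jt_IntFun A N) (n : ℕ) : jt_red (jt_pow a n) = jt_red a ^ n :=
  Subtype.ext (by show coeffMap (IsLocalRing.residue A) (a.1 ^ n) = _; rw [map_pow]; rfl)

theorem jt_gen_const [NeZero N] (a : A) (ha : IsLocalRing.residue A a ≠ 0) :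
    jt_gen (jt_const (N := N) a ha)
      = algebraMap (AlgebraicClosure ℚ) (modularFunctionFieldBar N) (a : AlgebraicClosure ℚ) :=
  Subtype.ext (by
    show coeffMap A.subtype (HahnSeries.single (0 : ℤ) a) = _
    rw [jt_coeffMap_single_zero]
    exact (algebraMap_laurentSeries_eq_single _ _).symm)

theorem jt_red_const [NeZero N] (a : A) (ha : IsLocalRing.residue A a ≠ 0) :
    jt_red (jt_const (N := N) a ha)
      = algebraMap (IsLocalRing.ResidueField A)
        (modularFunctionFieldFullC (IsLocalRing.ResidueField A) N) (IsLocalRing.residue A a) :=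
  Subtype.ext (by
    show coeffMap (IsLocalRing.residue A) (HahnSeries.single (0 : ℤ) a) = _
    rw [jt_coeffMap_single_zero]
    exact (algebraMap_laurentSeries_eq_single _ _).symm)

theorem jt_ord_pow {K F : Type*} [Field K] [Field F] [Algebra K F] (v : Place K F) (f : F)
    (n : ℕ) : v.ord (f ^ n) = n * v.ord f := by
  have := v.ord_zpow f (n : ℤ)
  rwa [zpow_natCast] at this

/-! ### a finite product of integral functions is a quotient of two of them -/

theorem jt_exists_quot (c : jt_IntFun A N →₀ ℤ) :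
    ∃ y1 y2 : jt_IntFun A N,
      (∀ P : Place (AlgebraicClosure ℚ) (modularFunctionFieldBar N),
        (c.sum fun y e => e * P.ord (jt_gen y)) = P.ord (jt_gen y1) - P.ord (jt_gen y2)) ∧
      (∀ Q : Place (IsLocalRing.ResidueField A)
          (modularFunctionFieldFullC (IsLocalRing.ResidueField A) N),
        (c.sum fun y e => e * Q.ord (jt_red y)) = Q.ord (jt_red y1) - Q.ord (jt_red y2)) := by
  classical
  induction c using Finsupp.induction with
  | zero =>
    refine ⟨jt_one, jt_one, fun P => ?_, fun Q => ?_⟩ <;> simp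
  | single_add a b c _ _ ih =>
    obtain ⟨y1, y2, h1, h2⟩ := ih
    have hs : ∀ φ : jt_IntFun A N → ℤ,
        ((Finsupp.single a b + c).sum fun y e => e * φ y) = b * φ a + c.sum fun y e => e * φ y := by
      intro φ
      rw [Finsupp.sum_add_index' (fun _ => by simp) (fun _ _ _ => by ring),
        Finsupp.sum_single_index (by simp)]
    rcases le_total 0 b with hb | hb
    · refine ⟨jt_mul (jt_pow a b.toNat) y1, y2, fun P => ?_, fun Q => ?_⟩
      · rw [hs, h1, jt_gen_mul, jt_gen_pow,
          Place.ord_mul P (pow_ne_zero _ (jt_gen_ne_zero a)) (jt_gen_ne_zero y1), jt_ord_pow,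
          Int.toNat_of_nonneg hb]
        ring
      · rw [hs, h2, jt_red_mul, jt_red_pow,
          Place.ord_mul Q (pow_ne_zero _ (jt_red_ne_zero a)) (jt_red_ne_zero y1), jt_ord_pow,
          Int.toNat_of_nonneg hb]
        ring
    · have hb' : ((-b).toNat : ℤ) = -b := Int.toNat_of_nonneg (by omega)
      refine ⟨y1, jt_mul (jt_pow a (-b).toNat) y2, fun P => ?_, fun Q => ?_⟩
      · rw [hs, h1, jt_gen_mul, jt_gen_pow,
          Place.ord_mul P (pow_ne_zero _ (jt_gen_ne_zero a)) (jt_gen_ne_zero y2), jt_ord_pow, hb']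
        ring
      · rw [hs, h2, jt_red_mul, jt_red_pow,
          Place.ord_mul Q (pow_ne_zero _ (jt_red_ne_zero a)) (jt_red_ne_zero y2), jt_ord_pow, hb']
        ring

/-! ### F-core from KEY -/

theorem jt_FCore_of_Key [NeZero N] {p : ℕ} (hp : p ≠ 0) (hK : jt_Key A N p)
    (hC : jt_ConstRed A N) : jt_FCore A N p := by
  intro c D hD hred
  obtain ⟨y1, y2, h1, h2⟩ := jt_exists_quot c
  -- the reduction of `y1 / y2` is a constant
  have hq0 : jt_red y1 / jt_red y2 ≠ 0 := div_ne_zero (jt_red_ne_zero y1) (jt_red_ne_zero y2)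
  obtain ⟨cbar, hcbar⟩ := hC (jt_red y1 / jt_red y2) hq0 (fun Q => by
    rw [div_eq_mul_inv, Place.ord_mul Q (jt_red_ne_zero y1) (inv_ne_zero (jt_red_ne_zero y2)),
      Place.ord_inv, ← sub_eq_add_neg, ← h2 Q, hred Q])
  have hcbar0 : cbar ≠ 0 := by
    rintro rfl
    rw [map_zero] at hcbar
    exact hq0 hcbar
  obtain ⟨a, rfl⟩ := IsLocalRing.residue_surjective cbar
  -- absorb the constant into `y2`
  set y2' : jt_IntFun A N := jt_mul (jt_const a hcbar0) y2 with hy2'
  have hredeq : jt_red y1 = jt_red y2' := by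
    rw [hy2', jt_red_mul, jt_red_const, ← hcbar, div_mul_cancel₀ _ (jt_red_ne_zero y2)]
  set f : modularFunctionFieldBar N := jt_gen y1 / jt_gen y2' with hf
  have hf0 : f ≠ 0 := div_ne_zero (jt_gen_ne_zero y1) (jt_gen_ne_zero y2')
  have hordf : ∀ P : Place (AlgebraicClosure ℚ) (modularFunctionFieldBar N),
      P.ord f = (p : ℤ) * D P := by
    intro P
    have ha0 : (algebraMap (AlgebraicClosure ℚ) (modularFunctionFieldBar N)
        (a : AlgebraicClosure ℚ)) ≠ 0 := by
      have := jt_gen_ne_zero (jt_const (N := N) a hcbar0)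
      rwa [jt_gen_const] at this
    rw [hf, div_eq_mul_inv, Place.ord_mul P (jt_gen_ne_zero y1) (inv_ne_zero (jt_gen_ne_zero y2')),
      Place.ord_inv, hy2', jt_gen_mul, jt_gen_const,
      Place.ord_mul P ha0 (jt_gen_ne_zero y2), hw_ord_algebraMap, zero_add, ← sub_eq_add_neg,
      ← h1 P, hD P]
  obtain ⟨c0, g, hg⟩ := hK y1.1 y2'.1 y1.2.1 y2'.2.1
    (congrArg Subtype.val hredeq) y2'.2.2.2 f
    (by rw [hf]; exact div_mul_cancel₀ _ (jt_gen_ne_zero y2'))
    (fun P => ⟨D P, hordf P⟩)
  have hg0 : g ≠ 0 := by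
    rintro rfl
    rw [zero_pow hp, mul_zero] at hg
    exact hf0 hg
  have hc0 : algebraMap (AlgebraicClosure ℚ) (modularFunctionFieldBar N) c0 ≠ 0 := by
    intro h
    rw [h, zero_mul] at hg
    exact hf0 hg
  refine ⟨g, hg0, fun P => ?_⟩
  have h3 := hordf P
  rw [hg, Place.ord_mul P hc0 (pow_ne_zero _ hg0), hw_ord_algebraMap, zero_add, jt_ord_pow] at h3
  have hp' : (p : ℤ) ≠ 0 := by exact_mod_cast hp
  exact (mul_left_cancel₀ hp' h3).symm

/-! ### reduction to prime exponents, and S18 from KEY -/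

theorem jt_torsion_induction {J M : Type*} [AddCommGroup J] [AddCommGroup M] (red : J →+ M)
    (m : ℕ) (hm : m ≠ 0)
    (hprime : ∀ p : ℕ, p.Prime → p ∣ m → ∀ z : J, p • z = 0 → red z = 0 → z = 0)
    (z : J) (hmz : m • z = 0) (hz : red z = 0) : z = 0 := by
  induction m using Nat.strong_induction_on generalizing z with
  | _ m ih =>
    rcases eq_or_ne m 1 with rfl | h1
    · simpa using hmz
    · obtain ⟨p, hp, hpm⟩ := Nat.exists_prime_and_dvd h1
      obtain ⟨m', rfl⟩ := hpm
      have hm'0 : m' ≠ 0 := by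
        rintro rfl
        exact hm (mul_zero p)
      have hz' : m' • z = 0 := by
        apply hprime p hp (dvd_mul_right p m') (m' • z)
        · rw [← mul_smul]; exact hmz
        · rw [map_nsmul, hz, smul_zero]
      refine ih m' ?_ hm'0 (fun q hq hqm => hprime q hq (hqm.mul_left p)) z hz' hz
      calc m' = 1 * m' := (one_mul m').symm
        _ < p * m' := Nat.mul_lt_mul_of_pos_right hp.one_lt (Nat.pos_of_ne_zero hm'0)

/-- **S18 from KEY at the prime divisors of `m`.** -/
theorem jt_S18_of_Key [NeZero N] (h : ReductionInputsModL A N) (m : ℕ) (hm : m ≠ 0)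
    (hK : ∀ p : ℕ, p.Prime → p ∣ m → jt_Key A N p) (hC : jt_ConstRed A N)
    (z : JZero N) (hmz : m • z = 0) (hz : reductionModL A N z = 0) : z = 0 :=
  jt_torsion_induction (reductionModL A N) m hm
    (fun p hp hpm z hpz hz =>
      jt_S18_of_FCore' h p (jt_FCore_of_Key hp.ne_zero (hK p hp hpm) hC) z hpz hz)
    z hmz hz

end Fermat.Agent.JT3

end
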