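/-
JT3 / Route R (S18): the seam predicates shared by the leaves (architect: helper2).

* `jt_UnramAt S E`        : field-level ramification seam (`S` a DVR inside the field `K`,
                            `E / K` a field extension): `E` is unramified over `S`.
* `jt_UnramCodimOne R B`  : chart-level ramification seam (`B` the normalisation of the chart base
                            `R`): `B / R` is unramified in codimension one.
* the local regularity seam is `tq_GenBy π u P ∧ tq_Dom π P` of `Model/TameQuotient.lean`.
-/
import Mathlib
import Fermat.Agent.JT3.Model.TameQuotient

set_option autoImplicit false

namespace Fermat.Agent.JT3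

section Carrier

variable (S E : Type*) [CommRing S] [Field E] [Algebra S E]

/-- **Ramification seam, arbitrary carrier.** The field `E` is unramified over the ring `S`
(in practice a discrete valuation ring whose fraction field is a subfield of `E`): every nonzero
prime of the integral closure of `S` in `E` is unramified over `S`. -/
def jt_Unram : Prop :=
  ∀ (P : Ideal (integralClosure S E)) [P.IsPrime], P ≠ ⊥ → Algebra.IsUnramifiedAt S P

end Carrier

section Field

variable {K : Type*} [Field K] (S : Subring K) (E : Type*) [Field E] [Algebra K E]

/-- **Field-level ramification seam.** `E / K` is unramified over the subring `S ⊆ K`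
(in practice a discrete valuation ring with fraction field `K`): every nonzero prime of the
integral closure of `S` in `E` is unramified over `S` (`e = 1` and separable residue extension,
`Algebra.isUnramifiedAt_iff_of_isDedekindDomain`). -/
def jt_UnramAt : Prop :=
  ∀ (P : Ideal (integralClosure S E)) [P.IsPrime], P ≠ ⊥ → Algebra.IsUnramifiedAt S P

theorem jt_unramAt_iff : jt_UnramAt S E ↔ jt_Unram S E := Iff.rfl

end Field

section Chart

variable (R B : Type*) [CommRing R] [CommRing B] [Algebra R B]

/-- **Chart-level ramification seam.** `B / R` is unramified at every prime of `B` lying over a
height-one prime of `R` (the hypothesis of `el_main_unram`, vertical prime included). -/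
def jt_UnramCodimOne : Prop :=
  ∀ (P : Ideal B) [P.IsPrime], (P.under R).height = 1 → Algebra.IsUnramifiedAt R P

/-- **Local regularity seam** for a chart `B` with the uniformiser `π` of the base: at every
maximal ideal containing `π` the local ring is regular with `π` part of a regular system of
parameters, and `π` is a prime element there. -/
def jt_RegAt (π : B) : Prop :=
  ∀ n : Ideal B, n.IsMaximal → π ∈ n → (∃ u : B, tq_GenBy π u n) ∧ tq_Dom π n

end Chart

end Fermat.Agent.JT3
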